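import Mathlib
import Fermat.Agent.S18.B12.H33.B2Regular
import Fermat.Agent.S18.B12.H278.Global

/-!
# S18 / Route K / b2: FULL NORMALITY of the special fibre, no domain hypothesis (helper633)

* `exists_smul_eq_of_integral_eq` (abstract, Mathlib + H278): `Λ` a PID, `C` a finite free
  `Λ`-algebra with basis `bb` satisfying the discriminant bound of `B2CoreAbsStatement` at every
  prime `t` of `Λ`.  If `e ∈ C`, `g ≠ 0` in `Λ` and `ε = e/g` satisfies a monic equation
  `e^d + ∑_{i<d} a_i e^i g^(d-i) = 0` with `a_i ∈ C`, then `e = g • c` for some `c ∈ C`.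
* `b2Normal` = **`B2NormalStatement`** (exact statement requested by row S37, note #4592,
  `origin/helper37:coord/S37-b2-request.md`), UNCONDITIONAL: same hypotheses as `B2Statement`
  (no `hdom`: the special fibre `B/wB` need not be a domain), conclusion for all elements `b/g`
  of the total fraction ring of `B/wB` that are integral over `B/wB`.
* `b2` : `B2Statement` (output O2 of `B12/Spec.lean`), UNCONDITIONAL (case `d = 2`).
-/

set_option autoImplicit false
set_option linter.style.haveILetI false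
set_option linter.unusedSectionVars false
set_option linter.overlappingInstances false

noncomputable section

namespace Fermat.Agent.S18.B12.H633

open Module Polynomial Fermat.Agent.S37.H278 Fermat.Agent.S18.B12.H278

universe u v

/-- **Normality of a finite free algebra over a PID from the discriminant bounds, elementwise
form without domain hypothesis.** -/
theorem exists_smul_eq_of_integral_eq {Λ : Type*} [CommRing Λ] [IsDomain Λ]
    [IsPrincipalIdealRing Λ] {C : Type*} [CommRing C] [Algebra Λ C] {n : ℕ}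
    (bb : Basis (Fin n) Λ C)
    (hloc : ∀ t : Λ, Prime t → ∃ (s : ℕ) (y : Fin s → C),
      (∀ x : C, ∃ a : Fin s → Λ,
        x - ∑ i, a i • y i ∈ (Ideal.span {algebraMap Λ C t}).radical) ∧
      ¬ t ^ (n - s + 1) ∣ Algebra.discr Λ bb)
    (e : C) (g : Λ) (hg : g ≠ 0) (d : ℕ) (a : Fin d → C)
    (h : e ^ d + ∑ i : Fin d, a i * e ^ (i : ℕ) * algebraMap Λ C g ^ (d - (i : ℕ)) = 0) :
    ∃ c : C, e = g • c := by
  classical
  haveI : Module.Free Λ C := Module.Free.of_basis bb
  haveI : Module.Finite Λ C := Module.Finite.of_basis bb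
  let L₀ := Localization (Algebra.algebraMapSubmonoid C (nonZeroDivisors Λ))
  have hinj : Function.Injective (algebraMap C L₀) := algebraMap_injective_of_free (o := Λ) L₀
  have hunit : ∀ r : Λ, r ≠ 0 → IsUnit (algebraMap Λ L₀ r) := by
    intro r hr
    rw [IsScalarTower.algebraMap_apply Λ C L₀]
    exact IsLocalization.map_units L₀ (⟨algebraMap Λ C r, ⟨r, mem_nonZeroDivisors_of_ne_zero hr,
      rfl⟩⟩ : Algebra.algebraMapSubmonoid C (nonZeroDivisors Λ))
  have hL : ∀ (r : Λ) (l : L₀), r ≠ 0 → r • l = 0 → l = 0 := by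
    intro r l hr h0
    rw [Algebra.smul_def] at h0
    exact ((hunit r hr).mul_right_eq_zero).mp h0
  obtain ⟨w, hw⟩ := (hunit g hg).exists_left_inv
  -- the fraction `ε = e / g`
  set γ : L₀ := algebraMap Λ L₀ g with hγ
  set ε : L₀ := w * algebraMap C L₀ e with hε
  have hγε : γ * ε = algebraMap C L₀ e := by
    rw [hε, ← mul_assoc, mul_comm γ w, hw, one_mul]
  have hγC : algebraMap C L₀ (algebraMap Λ C g) = γ := by
    rw [hγ, ← IsScalarTower.algebraMap_apply]
  -- `ε` is integral over `C`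
  have hεC : IsIntegral C ε := by
    refine ⟨X ^ d + ∑ i : Fin d, Polynomial.C (a i) * X ^ (i : ℕ),
      Polynomial.monic_X_pow_add (Polynomial.degree_sum_fin_lt a), ?_⟩
    have hγd : IsUnit (γ ^ d) := (hunit g hg).pow d
    apply (hγd.mul_right_eq_zero).mp
    have h' := congrArg (algebraMap C L₀) h
    rw [map_zero, map_add, map_pow, map_sum] at h'
    rw [← h', eval₂_add, eval₂_pow, eval₂_X, eval₂_finsetSum, mul_add, ← mul_pow, hγε,
      Finset.mul_sum]
    congr 1
    refine Finset.sum_congr rfl fun i _ => ?_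
    rw [eval₂_mul, eval₂_C, eval₂_pow, eval₂_X, map_mul, map_mul, map_pow, map_pow, hγC, ← hγε]
    have hi : (i : ℕ) + (d - (i : ℕ)) = d := Nat.add_sub_cancel' i.2.le
    calc γ ^ d * (algebraMap C L₀ (a i) * ε ^ (i : ℕ))
        = γ ^ ((i : ℕ) + (d - (i : ℕ))) * (algebraMap C L₀ (a i) * ε ^ (i : ℕ)) := by rw [hi]
      _ = algebraMap C L₀ (a i) * (γ * ε) ^ (i : ℕ) * γ ^ (d - (i : ℕ)) := by
          rw [pow_add, mul_pow]; ring
  have hεΛ : IsIntegral Λ ε := isIntegral_trans (R := Λ) (A := C) ε hεC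
  have hx0 : ∃ g₀ : Λ, g₀ ≠ 0 ∧ g₀ • ε ∈ (IsScalarTower.toAlgHom Λ C L₀).range := by
    refine ⟨g, hg, e, ?_⟩
    show algebraMap C L₀ e = g • ε
    rw [Algebra.smul_def, ← hγ, hγε]
  obtain ⟨c, hc⟩ := mem_range_of_isIntegral_of_forall_prime hL
    (IsScalarTower.toAlgHom Λ C L₀) hinj bb (by simpa using hloc) ε hεΛ hx0
  have hc' : algebraMap C L₀ c = ε := hc
  refine ⟨c, hinj ?_⟩
  rw [Algebra.smul_def, map_mul, hγC, hc', hγε]

/-- **`B2NormalStatement`** (row S37's request `origin/helper37:coord/S37-b2-request.md`),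
UNCONDITIONAL.  Same hypotheses as `B2Statement`; if `ε = b/g` (`g ∉ (w)`) satisfies a monic
equation over `B/wB`, then `ε ∈ B/wB`, i.e. `b ≡ g b₀ mod wB`. -/
theorem b2Normal :
    ∀ (R : Type u) [CommRing R] [IsDomain R] [IsDiscreteValuationRing R] [CharZero R]
      (w : R) (_ : Irreducible w)
      (B : Type v) [CommRing B] [IsDomain B] [IsIntegrallyClosed B] [Algebra R[X] B]
      [Module.Finite R[X] B] [Module.IsTorsionFree R[X] B]
      (_ : ∃ x : Fin (Module.finrank R[X] B) → B,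
          ¬ C w ∣ (Matrix.of fun i j => Algebra.intTrace R[X] B (x i * x j)).det)
      (S : Finset R) (_ : ∀ c ∈ S, ∀ c' ∈ S, c ≠ c' → IsUnit (c - c'))
      (_ : ∀ π : R[X], Prime π → ¬ Associated π (C w) → (∀ c ∈ S, ¬ Associated π (X - C c)) →
          (Ideal.span {algebraMap R[X] B π}).IsRadical)
      (b : B) (g : R[X]), ¬ C w ∣ g →
      (∃ (d : ℕ) (a : Fin d → B),
          b ^ d + ∑ i : Fin d, a i * b ^ (i : ℕ) * algebraMap R[X] B g ^ (d - (i : ℕ)) ∈
            Ideal.span {algebraMap R[X] B (C w)}) →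
        ∃ b₀ : B, b - algebraMap R[X] B g * b₀ ∈ Ideal.span {algebraMap R[X] B (C w)} := by
  intro R _ _ _ _ w hw B _ _ _ _ _ _ hsep S hS hNC b g hg hint
  obtain ⟨d, a, hda⟩ := hint
  obtain ⟨hCw, hΛ, hΛ₀, hℚ, hc⟩ := H203.polyInst R w hw
  have hJ : (Ideal.span {(C w : R[X])}).map (algebraMap R[X] B)
      = Ideal.span {algebraMap R[X] B (C w)} := by
    rw [Ideal.map_span, Set.image_singleton]
  rw [← hJ] at hda ⊢
  -- instances on the special fibre
  haveI := hΛ
  haveI : IsDomain (R[X] ⧸ Ideal.span {(C w : R[X])}) := by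
    rw [Ideal.Quotient.isDomain_iff_prime]
    exact (Ideal.span_singleton_prime hCw.ne_zero).mpr hCw
  haveI tf := H33.isTorsionFree_quotient (B := B) H93.regSeqAbs (C w : R[X]) hCw
  haveI : Module.Finite (R[X] ⧸ Ideal.span {(C w : R[X])})
      (B ⧸ (Ideal.span {(C w : R[X])}).map (algebraMap R[X] B)) :=
    Module.Finite.of_restrictScalars_finite R[X] _ _
  haveI : Module.Free (R[X] ⧸ Ideal.span {(C w : R[X])})
      (B ⧸ (Ideal.span {(C w : R[X])}).map (algebraMap R[X] B)) :=
    Module.free_of_finite_type_torsion_free'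
  let bb := Module.finBasis (R[X] ⧸ Ideal.span {(C w : R[X])})
      (B ⧸ (Ideal.span {(C w : R[X])}).map (algebraMap R[X] B))
  -- translate the hypotheses
  classical
  have hS1' : ∀ s ∈ S.image (fun c => (X - C c : R[X])), Prime s ∧ ¬ Associated s (C w) ∧
      (Ideal.span {(C w : R[X]), s}).IsMaximal ∧
      IsPrincipalIdealRing (R[X] ⧸ Ideal.span {s}) := by
    intro s hs
    obtain ⟨c, -, rfl⟩ := Finset.mem_image.mp hs
    obtain ⟨h1, h2, h3, h4, -⟩ := hc c
    exact ⟨h1, h2, h3, h4⟩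
  have hS2' : ∀ s ∈ S.image (fun c => (X - C c : R[X])),
      ∀ s' ∈ S.image (fun c => (X - C c : R[X])), s ≠ s' →
      s' ∉ Ideal.span {(C w : R[X]), s} := by
    intro s hs s' hs' hne hmem
    obtain ⟨c, hcS, rfl⟩ := Finset.mem_image.mp hs
    obtain ⟨c', hcS', rfl⟩ := Finset.mem_image.mp hs'
    have hcc : c ≠ c' := fun h => hne (by rw [h])
    exact (hc c).2.2.2.2 c' hmem (hS c hcS c' hcS' hcc)
  have hNC' : ∀ π : R[X], Prime π → ¬ Associated π (C w) →
      (∀ s ∈ S.image (fun c => (X - C c : R[X])), ¬ Associated π s) →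
      (Ideal.span {algebraMap R[X] B π}).IsRadical := by
    intro π hπ hπw hπS
    exact hNC π hπ hπw (fun c hcS => hπS _ (Finset.mem_image_of_mem _ hcS))
  have hcore' := H33.b2CoreAbs R[X] (C w) hCw hΛ hΛ₀ hℚ B hsep
    (S.image (fun c => (X - C c : R[X]))) hS1' hS2' hNC'
  -- the abstract normality criterion on the special fibre
  set mkB := Ideal.Quotient.mk ((Ideal.span {(C w : R[X])}).map (algebraMap R[X] B)) with hmkB
  set mkP := Ideal.Quotient.mk (Ideal.span {(C w : R[X])}) with hmkP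
  have hg0 : mkP g ≠ 0 := by
    intro h0
    exact hg (Ideal.mem_span_singleton.mp (Ideal.Quotient.eq_zero_iff_mem.mp h0))
  have hmkg : algebraMap (R[X] ⧸ Ideal.span {(C w : R[X])})
      (B ⧸ (Ideal.span {(C w : R[X])}).map (algebraMap R[X] B)) (mkP g)
        = mkB (algebraMap R[X] B g) := rfl
  have heq : mkB b ^ d + ∑ i : Fin d, mkB (a i) * mkB b ^ (i : ℕ) *
      algebraMap (R[X] ⧸ Ideal.span {(C w : R[X])})
        (B ⧸ (Ideal.span {(C w : R[X])}).map (algebraMap R[X] B)) (mkP g) ^ (d - (i : ℕ)) = 0 := by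
    have := Ideal.Quotient.eq_zero_iff_mem.mpr hda
    rw [map_add, map_pow, map_sum] at this
    rw [← this]
    congr 1
  obtain ⟨c, hc'⟩ := exists_smul_eq_of_integral_eq bb
    (fun t ht => (hcore' t ht _ bb).2) (mkB b) (mkP g) hg0 d (fun i => mkB (a i)) heq
  obtain ⟨b₀, rfl⟩ := Ideal.Quotient.mk_surjective c
  refine ⟨b₀, ?_⟩
  rw [← Ideal.Quotient.eq_zero_iff_mem, map_sub, map_mul, sub_eq_zero, hc', Algebra.smul_def,
    hmkg]

/-- **Output O2 = `B2Statement`** (`B12/Spec.lean`), UNCONDITIONAL: idempotents of the total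
fraction ring of `B/wB` lie in `B/wB` (no domain hypothesis on the special fibre). -/
theorem b2 : B2Statement.{u, v} := by
  intro R _ _ _ _ w hw B _ _ _ _ _ _ hsep S hS hNC b g hg hidem
  refine b2Normal R w hw B hsep S hS hNC b g hg ⟨2, ![0, -1], ?_⟩
  have : b ^ 2 + ∑ i : Fin 2, (![0, -1] : Fin 2 → B) i * b ^ (i : ℕ) *
      algebraMap R[X] B g ^ (2 - (i : ℕ)) = b ^ 2 - algebraMap R[X] B g * b := by
    rw [Fin.sum_univ_two]
    simp
    ring
  rw [this]
  exact hidem

end Fermat.Agent.S18.B12.H633
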