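import Mathlib
import Fermat.Agent.S18.B12.H693.RedBasis

/-!
# S18 / Route K / b2.5, piece A5' = `RedBasisAbsStatement` (helper633), explicit form

`P` a domain, `s ∈ P` prime with `P/(s)` a PID, `B` a finite `P`-algebra on which `s` is
"regular relative to `P`" (`hreg`: `u b = s b'`, `s ∤ u` ⟹ `b ∈ sB`; this is A0 `RegSeqAbsStatement`
for normal `B`).  Then there is a family `y` of elements of `B` which is independent modulo
`rad(sB)` and spans `B` modulo `rad(sB)`.
-/

set_option autoImplicit false

namespace Fermat.Agent.S18.B12.H633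

open Module

section

variable {P : Type*} [CommRing P] [IsDomain P]
variable {B : Type*} [CommRing B] [Algebra P B] [Module.Finite P B]

/-- `B/sB` is torsion-free over `P/(s)` under the regularity hypothesis. -/
theorem isTorsionFree_quotient_of_reg (s : P) (hs : Prime s)
    (hreg : ∀ (u : P) (b b' : B), ¬ s ∣ u →
      algebraMap P B u * b = algebraMap P B s * b' → ∃ b'' : B, b = algebraMap P B s * b'') :
    letI : IsDomain (P ⧸ Ideal.span {s}) :=
      (Ideal.Quotient.isDomain_iff_prime _).mpr
        ((Ideal.span_singleton_prime hs.ne_zero).mpr hs)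
    Module.IsTorsionFree (P ⧸ Ideal.span {s}) (B ⧸ (Ideal.span {s}).map (algebraMap P B)) := by
  letI : IsDomain (P ⧸ Ideal.span {s}) :=
    (Ideal.Quotient.isDomain_iff_prime _).mpr ((Ideal.span_singleton_prime hs.ne_zero).mpr hs)
  rw [Module.isTorsionFree_iff_smul_eq_zero]
  intro ub bb h
  obtain ⟨u, rfl⟩ := Ideal.Quotient.mk_surjective ub
  obtain ⟨b, rfl⟩ := Ideal.Quotient.mk_surjective bb
  by_cases hu : s ∣ u
  · left
    rw [Ideal.Quotient.eq_zero_iff_mem, Ideal.mem_span_singleton]
    exact hu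
  right
  have h1 : Ideal.Quotient.mk ((Ideal.span {s}).map (algebraMap P B)) (algebraMap P B u * b) = 0 := by
    rw [← h, Ideal.Quotient.mk_smul_mk_quotient_map_quotient]
  rw [Ideal.Quotient.eq_zero_iff_mem, Ideal.map_span, Set.image_singleton,
    Ideal.mem_span_singleton'] at h1
  obtain ⟨b', hb'⟩ := h1
  obtain ⟨b'', hb''⟩ := hreg u b b' hu (by rw [← hb', mul_comm])
  rw [Ideal.Quotient.eq_zero_iff_mem, Ideal.map_span, Set.image_singleton,
    Ideal.mem_span_singleton']
  exact ⟨b'', by rw [hb'', mul_comm]⟩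

/-- **A5' (reduced basis at `s`), explicit form.** -/
theorem exists_redBasisAbs (s : P) (hs : Prime s)
    (hpid : IsPrincipalIdealRing (P ⧸ Ideal.span {s}))
    (hreg : ∀ (u : P) (b b' : B), ¬ s ∣ u →
      algebraMap P B u * b = algebraMap P B s * b' → ∃ b'' : B, b = algebraMap P B s * b'') :
    ∃ (r : ℕ) (y : Fin r → B),
      (∀ a : Fin r → P,
        (∑ i, a i • y i) ∈ (Ideal.span {algebraMap P B s}).radical → ∀ i, s ∣ a i) ∧
      (∀ b : B, ∃ a : Fin r → P,
        b - ∑ i, a i • y i ∈ (Ideal.span {algebraMap P B s}).radical) := by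
  classical
  letI : IsDomain (P ⧸ Ideal.span {s}) :=
    (Ideal.Quotient.isDomain_iff_prime _).mpr ((Ideal.span_singleton_prime hs.ne_zero).mpr hs)
  have htf := isTorsionFree_quotient_of_reg (B := B) s hs hreg
  have hfin : Module.Finite (P ⧸ Ideal.span {s}) (B ⧸ (Ideal.span {s}).map (algebraMap P B)) :=
    Module.Finite.of_restrictScalars_finite P _ _
  obtain ⟨r, yb, hind, hspan⟩ := H693.exists_redBasis (P ⧸ Ideal.span {s})
    (B ⧸ (Ideal.span {s}).map (algebraMap P B))
  have hmapspan : (Ideal.span {s}).map (algebraMap P B) = Ideal.span {algebraMap P B s} := by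
    rw [Ideal.map_span, Set.image_singleton]
  -- nilpotent in the quotient ↔ in the radical
  have hnil : ∀ b : B, IsNilpotent (Ideal.Quotient.mk ((Ideal.span {s}).map (algebraMap P B)) b) ↔
      b ∈ (Ideal.span {algebraMap P B s}).radical := by
    intro b
    rw [← hmapspan]
    constructor
    · rintro ⟨k, hk⟩
      rw [← map_pow, Ideal.Quotient.eq_zero_iff_mem] at hk
      exact ⟨k, hk⟩
    · rintro ⟨k, hk⟩
      exact ⟨k, by rw [← map_pow, Ideal.Quotient.eq_zero_iff_mem]; exact hk⟩
  choose y hy using fun i => Ideal.Quotient.mk_surjective (yb i)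
  have hsum : ∀ a : Fin r → P,
      Ideal.Quotient.mk ((Ideal.span {s}).map (algebraMap P B)) (∑ i, a i • y i) =
        ∑ i, (Ideal.Quotient.mk (Ideal.span {s}) (a i)) • yb i := by
    intro a
    rw [map_sum]
    refine Finset.sum_congr rfl fun i _ => ?_
    rw [← hy i, Ideal.Quotient.mk_smul_mk_quotient_map_quotient, Algebra.smul_def]
  refine ⟨r, y, ?_, ?_⟩
  · intro a ha i
    rw [← hnil, hsum] at ha
    have h0 := hind _ ha
    have := congrFun h0 i
    rw [Pi.zero_apply, Ideal.Quotient.eq_zero_iff_mem, Ideal.mem_span_singleton] at this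
    exact this
  · intro b
    obtain ⟨ab, hab⟩ := hspan (Ideal.Quotient.mk _ b)
    choose a ha using fun i => Ideal.Quotient.mk_surjective (ab i)
    refine ⟨a, ?_⟩
    rw [← hnil, map_sub, hsum]
    simpa [ha] using hab

end

end Fermat.Agent.S18.B12.H633
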