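import Mathlib
import Fermat.Agent.S18.B12.Spec2
import Fermat.Agent.S18.B12.H633.RedBasisAbs

/-!
# S18 / Route K / b2.5, piece A6 = `SpecialFibreStatement` (helper633)

`specialFibre_of : RegSeqAbsStatement → DiscrRedStatement → SFIdemIntStatement →
  SpecialFibreStatement`  (A0 + A3 + P2'' ⟹ A6), exact frozen shapes of `B12/Spec2.lean`.
-/

set_option autoImplicit false

namespace Fermat.Agent.S18.B12.H633

open Module

universe u v

theorem specialFibre_of (h0 : RegSeqAbsStatement.{u, v}) (h3 : DiscrRedStatement.{u, v})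
    (hP : SFIdemIntStatement.{u, v}) : SpecialFibreStatement.{u, v} := by
  intro P _ _ _ _ w hw hpid B _ _ _ _ _ _ p hmax hwp n x hx a D₁ hD hD₁ r y hy har e g hwg he
  classical
  -- the base `Λ = P/(w)` and the special fibre `C = B/wB`
  letI : IsDomain (P ⧸ Ideal.span {w}) :=
    (Ideal.Quotient.isDomain_iff_prime _).mpr ((Ideal.span_singleton_prime hw.ne_zero).mpr hw)
  haveI := hpid
  have hreg : ∀ (u : P) (b b' : B), ¬ w ∣ u →
      algebraMap P B u * b = algebraMap P B w * b' → ∃ b'' : B, b = algebraMap P B w * b'' := by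
    intro u b b' hu h
    obtain ⟨b'', hb'', -⟩ := h0 P B u w hw hu b b' h
    exact ⟨b'', hb''⟩
  have htf := isTorsionFree_quotient_of_reg (B := B) w hw hreg
  have hfin : Module.Finite (P ⧸ Ideal.span {w}) (B ⧸ (Ideal.span {w}).map (algebraMap P B)) :=
    Module.Finite.of_restrictScalars_finite P _ _
  haveI : Module.Free (P ⧸ Ideal.span {w}) (B ⧸ (Ideal.span {w}).map (algebraMap P B)) :=
    Module.free_of_finite_type_torsion_free'
  let bb := Module.finBasis (P ⧸ Ideal.span {w}) (B ⧸ (Ideal.span {w}).map (algebraMap P B))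
  haveI hprime : (Ideal.span {w, p}).IsPrime := hmax.isPrime
  have hw𝔪 : w ∈ Ideal.span {w, p} := Ideal.subset_span (by simp)
  have hp𝔪 : p ∈ Ideal.span {w, p} := Ideal.subset_span (by simp)
  obtain ⟨hn', u, hu, hdisc⟩ := h3 P B w hw (Ideal.span {w, p}) hw𝔪 n x hx _ bb
  subst hn'
  set π := Ideal.Quotient.mk (Ideal.span {w}) with hπ
  set mkB := Ideal.Quotient.mk ((Ideal.span {w}).map (algebraMap P B)) with hmkB
  set t := π p with ht
  -- divisibility by `t` in `Λ` ↔ membership in `(w, p)`
  have hF1 : ∀ z : P, t ∣ π z ↔ z ∈ Ideal.span {w, p} := by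
    intro z
    constructor
    · rintro ⟨qb, hq⟩
      obtain ⟨q, rfl⟩ := Ideal.Quotient.mk_surjective qb
      rw [ht, ← map_mul, hπ, Ideal.Quotient.eq, Ideal.mem_span_singleton] at hq
      obtain ⟨c, hc⟩ := hq
      rw [Ideal.mem_span_pair]
      exact ⟨c, q, by linear_combination -hc⟩
    · intro hz
      rw [Ideal.mem_span_pair] at hz
      obtain ⟨α, β, rfl⟩ := hz
      refine ⟨π β, ?_⟩
      rw [map_add, map_mul, map_mul, ht]
      have : π w = 0 := by
        rw [hπ, Ideal.Quotient.eq_zero_iff_mem]; exact Ideal.mem_span_singleton_self w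
      rw [this, mul_zero, zero_add, mul_comm]
  have ht0 : t ≠ 0 := by
    intro h
    rw [ht, hπ, Ideal.Quotient.eq_zero_iff_mem, Ideal.mem_span_singleton] at h
    exact hwp h
  have htprime : Prime t := by
    rw [← Ideal.span_singleton_prime ht0]
    have hmap : Ideal.map π (Ideal.span {w, p}) = Ideal.span {t} := by
      rw [Ideal.map_span, Set.image_pair]
      have : π w = 0 := by
        rw [hπ, Ideal.Quotient.eq_zero_iff_mem]; exact Ideal.mem_span_singleton_self w
      rw [this]
      apply le_antisymm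
      · rw [Ideal.span_le]
        rintro z (rfl | rfl)
        · exact Ideal.zero_mem _
        · exact Ideal.mem_span_singleton_self _
      · exact Ideal.span_mono (Set.singleton_subset_iff.mpr (Set.mem_insert_of_mem _ rfl))
    rw [← hmap]
    have hker : RingHom.ker π ≤ Ideal.span {w, p} := by
      rw [hπ, Ideal.mk_ker, Ideal.span_singleton_le_iff_mem]; exact hw𝔪
    exact (Ideal.map_isPrime_of_surjective Ideal.Quotient.mk_surjective hker)
  have htD₁ : ¬ t ∣ π D₁ := fun h => hD₁ ((hF1 D₁).mp h)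
  have htu : ¬ t ∣ π u := fun h => hu ((hF1 u).mp h)
  -- the discriminant of the special fibre
  have hdisc' : t ^ a * π D₁ = π u ^ 2 * Algebra.discr (P ⧸ Ideal.span {w}) bb := by
    rw [← hdisc, hD, map_mul, map_pow]
  have hdisc0 : Algebra.discr (P ⧸ Ideal.span {w}) bb ≠ 0 := by
    intro h0'
    rw [h0', mul_zero] at hdisc'
    rcases mul_eq_zero.mp hdisc' with h | h
    · exact pow_ne_zero a ht0 h
    · exact htD₁ (h ▸ dvd_zero t)
  have hndvd : ¬ t ^ (Module.finrank (P ⧸ Ideal.span {w})
      (B ⧸ (Ideal.span {w}).map (algebraMap P B)) - r + 1) ∣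
      Algebra.discr (P ⧸ Ideal.span {w}) bb := by
    intro hdvd
    have h1 : t ^ (a + 1) ∣ t ^ a * π D₁ := by
      rw [hdisc']
      exact ((pow_dvd_pow t (by omega)).trans hdvd).mul_left _
    rw [pow_succ] at h1
    exact htD₁ ((mul_dvd_mul_iff_left (pow_ne_zero a ht0)).mp h1)
  -- spanning modulo the radical
  have hspan : ∀ c : B ⧸ (Ideal.span {w}).map (algebraMap P B),
      ∃ ab : Fin r → P ⧸ Ideal.span {w},
        c - ∑ i, ab i • mkB (y i) ∈ (Ideal.span {algebraMap (P ⧸ Ideal.span {w})
          (B ⧸ (Ideal.span {w}).map (algebraMap P B)) t}).radical := by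
    intro c
    obtain ⟨b, rfl⟩ := Ideal.Quotient.mk_surjective c
    obtain ⟨cc, k, hk⟩ := hy b
    refine ⟨fun i => π (cc i), k, ?_⟩
    have h1 : mkB b - ∑ i, π (cc i) • mkB (y i) = mkB (b - ∑ i, cc i • y i) := by
      rw [map_sub, map_sum]
      congr 1
    rw [h1, ← map_pow]
    -- an element of `(w, p) B` maps into `(t)`
    have hle : Ideal.map mkB (Ideal.span {algebraMap P B w, algebraMap P B p}) ≤
        Ideal.span {algebraMap (P ⧸ Ideal.span {w})
          (B ⧸ (Ideal.span {w}).map (algebraMap P B)) t} := by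
      rw [Ideal.map_le_iff_le_comap, Ideal.span_le]
      intro z hz
      rw [SetLike.mem_coe, Ideal.mem_comap]
      rcases hz with rfl | hz
      · have : mkB (algebraMap P B w) = 0 :=
          Ideal.Quotient.eq_zero_iff_mem.mpr
            (Ideal.mem_map_of_mem _ (Ideal.mem_span_singleton_self w))
        rw [this]
        exact Ideal.zero_mem _
      · rw [Set.mem_singleton_iff] at hz
        subst hz
        have : mkB (algebraMap P B p) = algebraMap (P ⧸ Ideal.span {w})
            (B ⧸ (Ideal.span {w}).map (algebraMap P B)) t := rfl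
        rw [this]
        exact Ideal.mem_span_singleton_self _
    exact hle (Ideal.mem_map_of_mem _ hk)
  -- the idempotent
  have hg0 : π g ≠ 0 := by
    intro h
    rw [hπ, Ideal.Quotient.eq_zero_iff_mem, Ideal.mem_span_singleton] at h
    exact hwg h
  have hee : mkB e * mkB e = π g • mkB e := by
    rw [hπ, hmkB, Ideal.Quotient.mk_smul_mk_quotient_map_quotient, ← map_mul,
      Ideal.Quotient.eq, Ideal.map_span, Set.image_singleton]
    have : e * e - algebraMap P B g * e = e ^ 2 - algebraMap P B g * e := by ring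
    rw [this]
    exact he
  obtain ⟨hb, cb, hhb, hhc⟩ := hP (P ⧸ Ideal.span {w}) t htprime
    (B ⧸ (Ideal.span {w}).map (algebraMap P B)) _ bb r (fun i => mkB (y i)) hspan hdisc0 hndvd
    (mkB e) (π g) hg0 hee
  obtain ⟨h, rfl⟩ := Ideal.Quotient.mk_surjective hb
  obtain ⟨c, rfl⟩ := Ideal.Quotient.mk_surjective cb
  refine ⟨h, c, fun hmem => hhb ((hF1 h).mpr hmem), ?_⟩
  rw [Ideal.Quotient.mk_smul_mk_quotient_map_quotient,
    Ideal.Quotient.mk_smul_mk_quotient_map_quotient, Ideal.Quotient.eq, Ideal.map_span,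
    Set.image_singleton] at hhc
  exact hhc

end Fermat.Agent.S18.B12.H633
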